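/-
S18lib / RRlat / Basic (helper1): elementary consequences of a reduction datum.
* the kernel of `red` is the set of non-units of `O`;
* constants: `A ⊆ O`, `red` on constants is the residue map, `𝔪_A` reduces to `0`;
* orthonormal families: `L`-linear independence, and `∑ cᵢ bᵢ ∈ O ↔ ∀ i, cᵢ ∈ A`.
-/
import Fermat.Agent.S18lib.Setup.Datum

set_option autoImplicit false

noncomputable section

namespace Fermat.Agent.S18lib.RRlat

open AlgebraicCurve

variable {L : Type*} [Field L] {A : ValuationSubring L}
variable {F : Type*} [Field F] [Algebra L F]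
variable {Fk : Type*} [Field Fk] [Algebra (IsLocalRing.ResidueField A) Fk]

/-! ### A valuation ring lemma -/

/-- In a valuation ring, a finite family of elements of the fraction field, not all zero, has a
"largest" member: all quotients by it are integral. -/
theorem exists_forall_div_mem {ι : Type*} [Fintype ι] (c : ι → L) (hc : ∃ i, c i ≠ 0) :
    ∃ j, c j ≠ 0 ∧ ∀ i, c i / c j ∈ A := by
  classical
  obtain ⟨i₀, hi₀⟩ := hc
  obtain ⟨j, -, hj⟩ := Finset.exists_max_image Finset.univ (fun i => A.valuation (c i))
    ⟨i₀, Finset.mem_univ _⟩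
  have hj0 : c j ≠ 0 := by
    intro h0
    have h1 := hj i₀ (Finset.mem_univ _)
    rw [h0, map_zero] at h1
    exact hi₀ ((map_eq_zero _).mp (le_antisymm h1 zero_le))
  refine ⟨j, hj0, fun i => ?_⟩
  rw [← A.valuation_le_one_iff, map_div₀]
  exact div_le_one_of_le₀ (hj i (Finset.mem_univ _)) zero_le

/-! ### The kernel of the reduction map -/

variable (D : RedDatum A F Fk)

theorem red_eq_zero_iff (y : D.O) : D.red y = 0 ↔ ¬ IsUnit y := by
  constructor
  · intro h hu
    have := hu.map D.red
    rw [h] at this
    exact not_isUnit_zero this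
  · intro h
    have hmax : (RingHom.ker D.red).IsMaximal := RingHom.ker_isMaximal_of_surjective _ D.red_surjective
    have : RingHom.ker D.red = IsLocalRing.maximalIdeal D.O := IsLocalRing.eq_maximalIdeal hmax
    have hy : y ∈ IsLocalRing.maximalIdeal D.O := (IsLocalRing.mem_maximalIdeal y).mpr h
    rw [← this] at hy
    exact hy

theorem red_ne_zero_iff (y : D.O) : D.red y ≠ 0 ↔ IsUnit y := by
  rw [ne_eq, red_eq_zero_iff, not_not]

/-! ### Constants -/

theorem algebraMap_mem (a : A) : algebraMap L F (a : L) ∈ D.O :=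
  (D.algebraMap_mem_iff a).mpr a.2

/-- the constant `a ∈ A` as an element of `O` -/
def constO (a : A) : D.O := ⟨algebraMap L F (a : L), algebraMap_mem D a⟩

@[simp] theorem coe_constO (a : A) : ((constO D a : D.O) : F) = algebraMap L F (a : L) := rfl

theorem red_constO (a : A) :
    D.red (constO D a) = algebraMap (IsLocalRing.ResidueField A) Fk (IsLocalRing.residue A a) :=
  D.red_algebraMap a _

theorem red_constO_of_mem_maximalIdeal {a : A} (ha : a ∈ IsLocalRing.maximalIdeal A) :
    D.red (constO D a) = 0 := by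
  rw [red_constO, (IsLocalRing.residue_eq_zero_iff a).mpr ha, map_zero]

theorem constO_add (a b : A) : constO D (a + b) = constO D a + constO D b := by
  apply Subtype.ext
  simp

theorem constO_mul (a b : A) : constO D (a * b) = constO D a * constO D b := by
  apply Subtype.ext
  simp

/-- `redF` of a constant times an element of `O`. -/
theorem redF_const_mul (a : A) {y : F} (hy : y ∈ D.O) :
    D.redF (algebraMap L F (a : L) * y) =
      algebraMap (IsLocalRing.ResidueField A) Fk (IsLocalRing.residue A a) * D.redF y := by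
  have h1 : algebraMap L F (a : L) * y ∈ D.O := mul_mem (algebraMap_mem D a) hy
  rw [D.redF_of_mem h1, D.redF_of_mem hy, ← red_constO D a, ← map_mul]
  rfl

theorem redF_zero : D.redF 0 = 0 := by
  rw [D.redF_of_mem D.O.zero_mem]
  exact map_zero D.red

theorem redF_add {x y : F} (hx : x ∈ D.O) (hy : y ∈ D.O) :
    D.redF (x + y) = D.redF x + D.redF y := by
  rw [D.redF_of_mem (add_mem hx hy), D.redF_of_mem hx, D.redF_of_mem hy, ← map_add]
  rfl

theorem redF_sum {ι : Type*} (s : Finset ι) (f : ι → F) (hf : ∀ i ∈ s, f i ∈ D.O) :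
    D.redF (∑ i ∈ s, f i) = ∑ i ∈ s, D.redF (f i) := by
  classical
  induction s using Finset.induction_on with
  | empty => simpa using redF_zero D
  | insert a s ha ih =>
    rw [Finset.sum_insert ha, Finset.sum_insert ha,
      redF_add D (hf a (Finset.mem_insert_self a s))
        (sum_mem fun i hi => hf i (Finset.mem_insert_of_mem hi)),
      ih fun i hi => hf i (Finset.mem_insert_of_mem hi)]

/-- `redF` of an `A`-linear combination of elements of `O`. -/
theorem redF_sum_const_mul {ι : Type*} [Fintype ι] (a : ι → A) (b : ι → F) (hb : ∀ i, b i ∈ D.O) :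
    D.redF (∑ i, algebraMap L F (a i : L) * b i) =
      ∑ i, algebraMap (IsLocalRing.ResidueField A) Fk (IsLocalRing.residue A (a i)) *
        D.redF (b i) := by
  rw [redF_sum D _ _ fun i _ => mul_mem (algebraMap_mem D (a i)) (hb i)]
  exact Finset.sum_congr rfl fun i _ => redF_const_mul D (a i) (hb i)

/-! ### Orthonormal families -/

variable {D}

/-- Key lemma: if an `L`-combination of an orthonormal family lies in `O`, then after dividing by
the largest coefficient `c j ∉ A` we would get a nontrivial relation between the reductions. -/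
theorem IsOrthonormal_coeff_mem {ι : Type*} [Fintype ι] {b : ι → F} (hb : D.IsOrthonormal b)
    (c : ι → L) (h : ∑ i, algebraMap L F (c i) * b i ∈ D.O) : ∀ i, c i ∈ A := by
  classical
  by_contra hcon
  push Not at hcon
  obtain ⟨i₁, hi₁⟩ := hcon
  have hne : ∃ i, c i ≠ 0 := ⟨i₁, fun h0 => hi₁ (h0 ▸ A.zero_mem)⟩
  obtain ⟨j, hj0, hj⟩ := exists_forall_div_mem (A := A) c hne
  -- `c j ∉ A`, otherwise all `c i = (c i / c j) * c j ∈ A`
  have hjA : c j ∉ A := by
    intro hjA
    apply hi₁
    have : c i₁ = c i₁ / c j * c j := by field_simp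
    rw [this]
    exact mul_mem (hj i₁) hjA
  have hjinv : (c j)⁻¹ ∈ A := (A.mem_or_inv_mem (c j)).resolve_left hjA
  have hjinv_max : (⟨(c j)⁻¹, hjinv⟩ : A) ∈ IsLocalRing.maximalIdeal A := by
    rw [IsLocalRing.mem_maximalIdeal, mem_nonunits_iff]
    intro hu
    apply hjA
    obtain ⟨u, hu⟩ := hu
    have h1 : ((u : A) : L) * ((u⁻¹ : Aˣ) : A) = 1 := by
      have h0 := congrArg (Subtype.val) (u.mul_inv)
      exact h0
    rw [hu] at h1
    have h2 : (((u⁻¹ : Aˣ) : A) : L) = c j := by
      have h3 : (c j)⁻¹ * (((u⁻¹ : Aˣ) : A) : L) = 1 := h1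
      field_simp at h3
      exact h3.symm ▸ rfl
    rw [← h2]
    exact ((u⁻¹ : Aˣ) : A).2
  set a : ι → A := fun i => ⟨c i / c j, hj i⟩ with ha
  -- the identity `(c j)⁻¹ * y = ∑ a i * b i`
  have hid : algebraMap L F (c j)⁻¹ * (∑ i, algebraMap L F (c i) * b i) =
      ∑ i, algebraMap L F ((a i : A) : L) * b i := by
    rw [Finset.mul_sum]
    refine Finset.sum_congr rfl fun i _ => ?_
    rw [← mul_assoc, ← map_mul]
    congr 2
    simp only [ha]
    field_simp
  have h1 := redF_const_mul D ⟨(c j)⁻¹, hjinv⟩ h
  rw [(IsLocalRing.residue_eq_zero_iff _).mpr hjinv_max, map_zero, zero_mul] at h1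
  have h2 := redF_sum_const_mul D a b hb.1
  change D.redF (algebraMap L F (c j)⁻¹ * _) = 0 at h1
  rw [hid, h2] at h1
  have h3 := Fintype.linearIndependent_iff.mp hb.2
    (fun i => IsLocalRing.residue A (a i)) (by
      simpa [Algebra.smul_def] using h1) j
  have haj : a j = 1 := by
    apply Subtype.ext
    simp only [ha]
    exact div_self hj0
  rw [haj, map_one] at h3
  exact one_ne_zero h3

end Fermat.Agent.S18lib.RRlat
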