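/-
S18lib / RRlat / Lattice (helper1): the lattice Riemann–Roch package over the valuation ring `A`.
For a reduction datum `D` with orthonormal bases:
* (RR1 + RR2) `M(E) = L(E) ∩ O` has an orthonormal `A`-basis of length `l(E)`;
* reduction maps `M(E)` into `L_k(r_* E)`; semicontinuity `l(E) ≤ l_k(r_* E)`; `g_k ≤ g`;
* (RR3) with equal genus and `deg E > 2g - 2` every element of `L_k(r_* E)` lifts to `M(E)`.
-/
import Fermat.Agent.S18lib.RRlat.Basic
import Fermat.Agent.S18lib.Setup.CurveRR

set_option autoImplicit false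

noncomputable section

namespace Fermat.Agent.S18lib.RRlat

open AlgebraicCurve

variable {L : Type*} [Field L] {A : ValuationSubring L}
variable {F : Type*} [Field F] [Algebra L F]
variable {Fk : Type*} [Field Fk] [Algebra (IsLocalRing.ResidueField A) Fk]

/-- An orthonormal family is `L`-linearly independent. -/
theorem IsOrthonormal.linearIndependent {D : RedDatum A F Fk} {ι : Type*} [Fintype ι] {b : ι → F}
    (hb : D.IsOrthonormal b) : LinearIndependent L b := by
  classical
  rw [Fintype.linearIndependent_iff]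
  intro c hc
  by_contra hcon
  push Not at hcon
  obtain ⟨j, hj0, hj⟩ := exists_forall_div_mem (A := A) c hcon
  set a : ι → A := fun i => ⟨c i / c j, hj i⟩ with ha
  have hid : ∑ i, algebraMap L F ((a i : A) : L) * b i = 0 := by
    have h1 : ∑ i, algebraMap L F ((a i : A) : L) * b i =
        algebraMap L F (c j)⁻¹ * ∑ i, c i • b i := by
      rw [Finset.mul_sum]
      refine Finset.sum_congr rfl fun i _ => ?_
      rw [Algebra.smul_def, ← mul_assoc, ← map_mul]
      congr 2
      simp only [ha]
      field_simp
    rw [h1, hc, mul_zero]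
  have h2 := redF_sum_const_mul D a b hb.1
  rw [hid, redF_zero] at h2
  have h3 := Fintype.linearIndependent_iff.mp hb.2
    (fun i => IsLocalRing.residue A (a i)) (by
      simpa [Algebra.smul_def] using h2.symm) j
  have haj : a j = 1 := by
    apply Subtype.ext
    simp only [ha]
    exact div_self hj0
  rw [haj, map_one] at h3
  exact one_ne_zero h3

/-- the lattice `M(E) = L(E) ∩ O` (as a subset of `F`; it is an `A`-submodule) -/
def latticeOf (D : RedDatum A F Fk) (E : Divisor L F) : Set F :=
  {y | y ∈ riemannRochSpace E ∧ y ∈ D.O}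

/-- An orthonormal family of `finrank W` vectors of a subspace `W`: every element of `W ∩ O` is an
`A`-combination. -/
theorem exists_coeff_of_isOrthonormal (D : RedDatum A F Fk) (W : Submodule L F)
    [FiniteDimensional L W] (b : Fin (Module.finrank L W) → F) (hbW : ∀ i, b i ∈ W)
    (hb : D.IsOrthonormal b) {y : F} (hyW : y ∈ W) (hyO : y ∈ D.O) :
    ∃ a : Fin (Module.finrank L W) → A, y = ∑ i, algebraMap L F (a i : L) * b i := by
  classical
  set b' : Fin (Module.finrank L W) → W := fun i => ⟨b i, hbW i⟩ with hb'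
  have hli : LinearIndependent L b' := by
    apply LinearIndependent.of_comp W.subtype
    exact IsOrthonormal.linearIndependent hb
  let B := basisOfLinearIndependentOfCardEqFinrank' b' hli (by simp)
  have hB : ∀ i, B i = b' i := fun i => by
    simp [B]
  have hy := B.sum_repr ⟨y, hyW⟩
  have hy' : y = ∑ i, algebraMap L F (B.repr ⟨y, hyW⟩ i) * b i := by
    have h0 := congrArg (Subtype.val) hy
    simp only [Submodule.coe_sum, Submodule.coe_smul, hB, hb'] at h0
    refine h0.symm.trans ?_
    exact Finset.sum_congr rfl fun i _ => by rw [Algebra.smul_def]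
  have hmem : ∑ i, algebraMap L F (B.repr ⟨y, hyW⟩ i) * b i ∈ D.O := hy' ▸ hyO
  have hA := IsOrthonormal_coeff_mem hb (fun i => B.repr ⟨y, hyW⟩ i) hmem
  exact ⟨fun i => ⟨B.repr ⟨y, hyW⟩ i, hA i⟩, hy'⟩

/-- RR1 + RR2: `M(E)` has an orthonormal `A`-basis of length `l(E)`:
`b i ∈ M(E)`, reductions `k`-independent, and every `y ∈ M(E)` is an `A`-combination. -/
theorem exists_orthonormal_basis_latticeOf (D : RedDatum A F Fk) (hD : D.HasOrthonormalBases)
    (E : Divisor L F) [FiniteDimensional L (riemannRochSpace E)] :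
    ∃ b : Fin (Module.finrank L (riemannRochSpace E)) → F,
      (∀ i, b i ∈ latticeOf D E) ∧ D.IsOrthonormal b ∧
      ∀ y ∈ latticeOf D E, ∃ a : Fin (Module.finrank L (riemannRochSpace E)) → A,
        y = ∑ i, algebraMap L F (a i : L) * b i := by
  obtain ⟨b, hbW, hb⟩ := hD (riemannRochSpace E) inferInstance
  refine ⟨b, fun i => ⟨hbW i, hb.1 i⟩, hb, fun y hy => ?_⟩
  exact exists_coeff_of_isOrthonormal D (riemannRochSpace E) b hbW hb hy.1 hy.2


/-! ### Reduction of `M(E)` -/

theorem mapDomain_nonneg {α β : Type*} (f : α → β) (G : α →₀ ℤ) (hG : ∀ a, 0 ≤ G a) (b : β) :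
    0 ≤ Finsupp.mapDomain f G b := by
  classical
  rw [Finsupp.mapDomain, Finsupp.sum_apply]
  refine Finset.sum_nonneg fun a _ => ?_
  show 0 ≤ (Finsupp.single (f a) (G a)) b
  rw [Finsupp.single_apply]
  split_ifs
  · exact hG a
  · exact le_rfl

theorem degree_mapDomain {K' F' K'' F'' : Type*} [Field K'] [Field F'] [Algebra K' F']
    [Field K''] [Field F''] [Algebra K'' F''] (r : Place K' F' → Place K'' F'')
    (hdeg : ∀ P, (r P).deg = P.deg) (E : Divisor K' F') :
    Divisor.degree (Finsupp.mapDomain r E) = Divisor.degree E := by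
  induction E using Finsupp.induction with
  | zero => simp
  | single_add P n E _ _ ih =>
    rw [Finsupp.mapDomain_add, map_add, map_add, ih, Finsupp.mapDomain_single,
      Divisor.degree_single, Divisor.degree_single, hdeg]

/-- reduction maps `M(E)` into `L_k(r_* E)` -/
theorem redF_mem_riemannRochSpace (D : RedDatum A F Fk) [HasPrincipalDivisors L F]
    (E : Divisor L F) {y : F} (hy : y ∈ latticeOf D E) :
    D.redF y ∈ riemannRochSpace (Finsupp.mapDomain D.r E) := by
  obtain ⟨hyE, hyO⟩ := hy
  rw [D.redF_of_mem hyO]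
  by_cases hred : D.red ⟨y, hyO⟩ = 0
  · rw [hred]
    exact Submodule.zero_mem _
  have hy0 : y ≠ 0 := by
    rintro rfl
    apply hred
    exact map_zero D.red
  obtain ⟨Dy, hDy, -⟩ := HasPrincipalDivisors.exists_divisor (K := L) y hy0
  rw [mem_riemannRochSpace_iff]
  intro Q
  right
  have h1 := D.mapDomain_div ⟨y, hyO⟩ hred Dy hDy Q
  have h2 : 0 ≤ Finsupp.mapDomain D.r (Dy + E) Q := by
    apply mapDomain_nonneg
    intro P
    rw [Finsupp.add_apply, hDy P]
    rcases (mem_riemannRochSpace_iff.mp hyE) P with h | h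
    · exact absurd h hy0
    · linarith
  rw [Finsupp.mapDomain_add, Finsupp.add_apply, h1] at h2
  linarith

/-- semicontinuity `l(E) ≤ l_k(r_* E)` -/
theorem finrank_le (D : RedDatum A F Fk) (hD : D.HasOrthonormalBases) [HasPrincipalDivisors L F]
    (E : Divisor L F) [FiniteDimensional L (riemannRochSpace E)]
    [FiniteDimensional (IsLocalRing.ResidueField A) (riemannRochSpace (Finsupp.mapDomain D.r E))] :
    Module.finrank L (riemannRochSpace E) ≤
      Module.finrank (IsLocalRing.ResidueField A) (riemannRochSpace (Finsupp.mapDomain D.r E)) := by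
  obtain ⟨b, hbM, hb, -⟩ := exists_orthonormal_basis_latticeOf D hD E
  set V := riemannRochSpace (Finsupp.mapDomain D.r E) with hV
  set b' : Fin (Module.finrank L (riemannRochSpace E)) → V :=
    fun i => ⟨D.redF (b i), redF_mem_riemannRochSpace D E (hbM i)⟩ with hb'
  have hli : LinearIndependent (IsLocalRing.ResidueField A) b' := by
    apply LinearIndependent.of_comp V.subtype
    exact hb.2
  have := hli.fintype_card_le_finrank
  simpa using this

/-- genus can only drop -/
theorem genus_le (D : RedDatum A F Fk) (hD : D.HasOrthonormalBases) {g gk : ℕ}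
    (hF : IsCurveOfGenus L F g) (hFk : IsCurveOfGenus (IsLocalRing.ResidueField A) Fk gk) :
    gk ≤ g := by
  have := hF.hasPrincipalDivisors
  have := hF.infinite_places
  obtain ⟨P₀⟩ : Nonempty (Place L F) := inferInstance
  set m : ℤ := 2 * g + 2 * gk + 1 with hm
  set E : Divisor L F := Finsupp.single P₀ m with hE
  have hdegE : Divisor.degree E = m := by
    rw [hE, Divisor.degree_single, hF.deg_eq_one]
    simp
  have hdegE' : Divisor.degree (Finsupp.mapDomain D.r E) = m := by
    rw [degree_mapDomain D.r D.deg_r, hdegE]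
  have := hF.finiteDimensional E
  have := hFk.finiteDimensional (Finsupp.mapDomain D.r E)
  have h1 := hF.riemann_eq E (by rw [hdegE, hm]; omega)
  have h2 := hFk.riemann_eq (Finsupp.mapDomain D.r E) (by rw [hdegE', hm]; omega)
  have h3 := finrank_le D hD E
  rw [hdegE] at h1
  rw [hdegE'] at h2
  have h4 : (Module.finrank L (riemannRochSpace E) : ℤ) ≤
      (Module.finrank (IsLocalRing.ResidueField A)
        (riemannRochSpace (Finsupp.mapDomain D.r E)) : ℤ) := by exact_mod_cast h3
  rw [h1, h2] at h4
  omega

/-- RR3 (lifting lemma): with equal genus, in degree `> 2g - 2` every element of `L_k(r_* E)`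
lifts. -/
theorem exists_lift (D : RedDatum A F Fk) (hD : D.HasOrthonormalBases) {g : ℕ}
    (hF : IsCurveOfGenus L F g) (hFk : IsCurveOfGenus (IsLocalRing.ResidueField A) Fk g)
    (E : Divisor L F) (hE : 2 * (g : ℤ) - 2 < Divisor.degree E)
    (η : Fk) (hη : η ∈ riemannRochSpace (Finsupp.mapDomain D.r E)) :
    ∃ y ∈ latticeOf D E, D.redF y = η := by
  classical
  have := hF.hasPrincipalDivisors
  have := hF.finiteDimensional E
  have := hFk.finiteDimensional (Finsupp.mapDomain D.r E)
  obtain ⟨b, hbM, hb, -⟩ := exists_orthonormal_basis_latticeOf D hD E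
  set V := riemannRochSpace (Finsupp.mapDomain D.r E) with hV
  set b' : Fin (Module.finrank L (riemannRochSpace E)) → V :=
    fun i => ⟨D.redF (b i), redF_mem_riemannRochSpace D E (hbM i)⟩ with hb'
  have hli : LinearIndependent (IsLocalRing.ResidueField A) b' := by
    apply LinearIndependent.of_comp V.subtype
    exact hb.2
  have hdeg' : Divisor.degree (Finsupp.mapDomain D.r E) = Divisor.degree E :=
    degree_mapDomain D.r D.deg_r E
  have h1 := hF.riemann_eq E hE
  have h2 := hFk.riemann_eq (Finsupp.mapDomain D.r E) (by rw [hdeg']; exact hE)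
  rw [hdeg'] at h2
  have hcard : Fintype.card (Fin (Module.finrank L (riemannRochSpace E))) =
      Module.finrank (IsLocalRing.ResidueField A) V := by
    rw [Fintype.card_fin]
    have : (Module.finrank L (riemannRochSpace E) : ℤ) =
        (Module.finrank (IsLocalRing.ResidueField A) V : ℤ) := by rw [h1, h2]
    exact_mod_cast this
  have hspan := hli.span_eq_top_of_card_eq_finrank' hcard
  have hmem : (⟨η, hη⟩ : V) ∈ Submodule.span (IsLocalRing.ResidueField A) (Set.range b') := by
    rw [hspan]; exact Submodule.mem_top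
  obtain ⟨c, hc⟩ := (Submodule.mem_span_range_iff_exists_fun _).mp hmem
  choose a ha using fun i => IsLocalRing.residue_surjective (R := A) (c i)
  refine ⟨∑ i, algebraMap L F (a i : L) * b i, ⟨?_, ?_⟩, ?_⟩
  · refine Submodule.sum_mem _ fun i _ => ?_
    rw [← Algebra.smul_def]
    exact Submodule.smul_mem _ _ (hbM i).1
  · exact sum_mem fun i _ => mul_mem (algebraMap_mem D (a i)) (hbM i).2
  · rw [redF_sum_const_mul D a b hb.1]
    have h3 := congrArg Subtype.val hc
    simp only [Submodule.coe_sum, Submodule.coe_smul, hb'] at h3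
    rw [← h3]
    exact Finset.sum_congr rfl fun i _ => by rw [ha i, Algebra.smul_def]

end Fermat.Agent.S18lib.RRlat
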